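import Fermat.Agent.S52.B.B2.H352.Main
import Fermat.Agent.S52.B.Interfaces

/-!
# S52 / B (helper352): `Switch ⇐ IntegralModelP ∧ FamilyHIT ∧ TorsionMap`

Same proof as `Fermat.Agent.S52.B.switch_of_parts`, with the prime form `IntegralModelP` of B2
(reductions compared only at the PRIME divisors of `M`; `Switch` uses `2`, `3`, `p₀` only).
-/

set_option autoImplicit false

namespace Fermat.Agent.S52.B.B2.H352

open WeierstrassCurve Fermat.Agent.S52.Fam Fermat.Agent.S52.B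

/-- `Switch` from the prime form of B2 (same proof as `switch_of_parts`). -/
theorem switch_of_partsP (hB2 : IntegralModelP) (hB3 : FamilyHIT) (hB1 : TorsionMap) :
    Fermat.Agent.S52.Switch := by
  intro W hΔ hW _h5 h3
  obtain ⟨M, p₀, hM0, hM6, hp₀, hp₀7, hp₀Δ, hp₀M, hmod⟩ := hB2 W hΔ hW
  have hM2 : 2 ≤ M := by
    obtain ⟨k, hk⟩ := hM6
    omega
  obtain ⟨n, hn, hirr⟩ := hB3 W hΔ hW h3 M hM2
  obtain ⟨W', hc4, hc6, hΔ', hss, hred⟩ := hmod n hn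
  have h2M : ((2 : ℕ) : ℤ) ∣ M := Dvd.dvd.trans (by norm_num) hM6
  have h3M : ((3 : ℕ) : ℤ) ∣ M := Dvd.dvd.trans (by norm_num) hM6
  exact ⟨W', hΔ', hss, hirr W' hΔ' hc4 hc6, hred 2 Nat.prime_two h2M, hred 3 Nat.prime_three h3M,
    hB1 W W' M n p₀ hΔ hΔ' hM0 hn hp₀ hp₀7 hp₀Δ hp₀M (hred p₀ hp₀ hp₀M) hc4 hc6⟩

end Fermat.Agent.S52.B.B2.H352
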