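import Mathlib
import Fermat.Prelude.Def_FLTPrelim_Modularity

/-!
# S52, piece (B2a): integral models with prescribed invariants near a given model

(Verbatim copy of helper172's `Fermat/Agent/S52/H172/Model.lean`, renamed into the namespace
`Fermat.Agent.S52.B.B2.H352` so that the B2 closure only depends on landed files.)

Data-independent.  Given `W : WeierstrassCurve ℤ` and integers `c4' c6'` with
`576 * K ∣ c4' - W.c₄` and `864 * K ∣ c6' - W.c₆`, there is an integral model `W'` with the same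
`a₁ a₂ a₃`, with `a₄, a₆` changed by multiples of `K`, and with `W'.c₄ = c4'`, `W'.c₆ = c6'`.
For primes `ℓ ∣ K` the reductions mod `ℓ` coincide, hence equal `apOfModel`, and the divisibility of
`Δ`, `c₄` by `ℓ` is unchanged.  A semistability criterion is deduced.
-/

set_option autoImplicit false

namespace Fermat.Agent.S52.B.B2.H352

open WeierstrassCurve

/-- Coefficientwise congruence of two integral Weierstrass models modulo `K`. -/
def CongrMod (K : ℤ) (W W' : WeierstrassCurve ℤ) : Prop :=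
  K ∣ W'.a₁ - W.a₁ ∧ K ∣ W'.a₂ - W.a₂ ∧ K ∣ W'.a₃ - W.a₃ ∧ K ∣ W'.a₄ - W.a₄ ∧ K ∣ W'.a₆ - W.a₆

theorem CongrMod.refl (K : ℤ) (W : WeierstrassCurve ℤ) : CongrMod K W W := by
  refine ⟨?_, ?_, ?_, ?_, ?_⟩ <;> simp

theorem CongrMod.of_dvd {K L : ℤ} {W W' : WeierstrassCurve ℤ} (h : CongrMod K W W')
    (hL : L ∣ K) : CongrMod L W W' :=
  ⟨hL.trans h.1, hL.trans h.2.1, hL.trans h.2.2.1, hL.trans h.2.2.2.1, hL.trans h.2.2.2.2⟩

/-- **Model existence.** -/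
theorem exists_model_of_congr (W : WeierstrassCurve ℤ) (K c4' c6' : ℤ)
    (h4 : 576 * K ∣ c4' - W.c₄) (h6 : 864 * K ∣ c6' - W.c₆) :
    ∃ W' : WeierstrassCurve ℤ, W'.a₁ = W.a₁ ∧ W'.a₂ = W.a₂ ∧ W'.a₃ = W.a₃ ∧
      K ∣ W'.a₄ - W.a₄ ∧ K ∣ W'.a₆ - W.a₆ ∧ W'.c₄ = c4' ∧ W'.c₆ = c6' := by
  obtain ⟨α, hα⟩ := h4
  obtain ⟨β, hβ⟩ := h6
  -- a₄' = a₄ - 12 K α,  a₆' = a₆ - K (β + b₂ α)
  refine ⟨⟨W.a₁, W.a₂, W.a₃, W.a₄ - 12 * K * α, W.a₆ - K * (β + W.b₂ * α)⟩,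
    rfl, rfl, rfl, ?_, ?_, ?_, ?_⟩
  · exact ⟨-12 * α, by ring⟩
  · exact ⟨-(β + W.b₂ * α), by ring⟩
  · have : c4' = W.c₄ + 576 * K * α := by linarith
    rw [this]
    simp only [WeierstrassCurve.c₄, WeierstrassCurve.b₂, WeierstrassCurve.b₄]
    ring
  · have : c6' = W.c₆ + 864 * K * β := by linarith
    rw [this]
    simp only [WeierstrassCurve.c₆, WeierstrassCurve.b₂, WeierstrassCurve.b₄,
      WeierstrassCurve.b₆]
    ring

/-- Same statement, packaged with `CongrMod`. -/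
theorem exists_model_congrMod (W : WeierstrassCurve ℤ) (K c4' c6' : ℤ)
    (h4 : 576 * K ∣ c4' - W.c₄) (h6 : 864 * K ∣ c6' - W.c₆) :
    ∃ W' : WeierstrassCurve ℤ, CongrMod K W W' ∧ W'.c₄ = c4' ∧ W'.c₆ = c6' := by
  obtain ⟨W', h1, h2, h3, h4', h6', hc4, hc6⟩ := exists_model_of_congr W K c4' c6' h4 h6
  exact ⟨W', ⟨by simp [h1], by simp [h2], by simp [h3], h4', h6'⟩, hc4, hc6⟩

/-- The discriminant of a model is determined by `c₄`, `c₆`. -/
theorem delta_ne_zero_of_c (W' : WeierstrassCurve ℤ) (h : W'.c₄ ^ 3 - W'.c₆ ^ 2 ≠ 0) :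
    W'.Δ ≠ 0 := by
  intro h0
  apply h
  rw [← W'.c_relation, h0, mul_zero]

section Congr

variable {K : ℤ} {W W' : WeierstrassCurve ℤ}

theorem CongrMod.map_eq {R : Type*} [CommRing R] (f : ℤ →+* R) (hK : f K = 0)
    (h : CongrMod K W W') : W'.map f = W.map f := by
  have key : ∀ a b : ℤ, K ∣ a - b → f a = f b := by
    intro a b ⟨c, hc⟩
    have : a = b + K * c := by linarith
    rw [this, map_add, map_mul, hK, zero_mul, add_zero]
  obtain ⟨h1, h2, h3, h4, h6⟩ := h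
  ext
  · exact key _ _ h1
  · exact key _ _ h2
  · exact key _ _ h3
  · exact key _ _ h4
  · exact key _ _ h6

theorem CongrMod.reductionMod_eq {ℓ : ℕ} (hℓ : (ℓ : ℤ) ∣ K) (h : CongrMod K W W') :
    W'.reductionMod ℓ = W.reductionMod ℓ := by
  unfold WeierstrassCurve.reductionMod
  apply CongrMod.map_eq (K := (ℓ : ℤ)) _ _ (h.of_dvd hℓ)
  simp

/-- Congruent models have the same `a_ℓ` at primes dividing the modulus. -/
theorem CongrMod.apOfModel_eq {ℓ : ℕ} (hℓ : (ℓ : ℤ) ∣ K) (h : CongrMod K W W') :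
    W'.apOfModel ℓ = W.apOfModel ℓ := by
  unfold WeierstrassCurve.apOfModel
  rw [h.reductionMod_eq hℓ]

theorem CongrMod.delta_sub_dvd (h : CongrMod K W W') : K ∣ W'.Δ - W.Δ := by
  have := h.map_eq (Int.castRingHom (ZMod K.natAbs)) (by
    rw [eq_intCast, ZMod.intCast_zmod_eq_zero_iff_dvd]; simp)
  have hΔ : (W'.map (Int.castRingHom (ZMod K.natAbs))).Δ =
      (W.map (Int.castRingHom (ZMod K.natAbs))).Δ := by rw [this]
  rw [WeierstrassCurve.map_Δ, WeierstrassCurve.map_Δ] at hΔ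
  have h2 : ((W'.Δ - W.Δ : ℤ) : ZMod K.natAbs) = 0 := by
    push_cast
    simpa [sub_eq_zero] using hΔ
  rw [ZMod.intCast_zmod_eq_zero_iff_dvd] at h2
  exact Int.natAbs_dvd.mp h2

theorem CongrMod.c₄_sub_dvd (h : CongrMod K W W') : K ∣ W'.c₄ - W.c₄ := by
  have := h.map_eq (Int.castRingHom (ZMod K.natAbs)) (by
    rw [eq_intCast, ZMod.intCast_zmod_eq_zero_iff_dvd]; simp)
  have hc : (W'.map (Int.castRingHom (ZMod K.natAbs))).c₄ =
      (W.map (Int.castRingHom (ZMod K.natAbs))).c₄ := by rw [this]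
  rw [WeierstrassCurve.map_c₄, WeierstrassCurve.map_c₄] at hc
  have h2 : ((W'.c₄ - W.c₄ : ℤ) : ZMod K.natAbs) = 0 := by
    push_cast
    simpa [sub_eq_zero] using hc
  rw [ZMod.intCast_zmod_eq_zero_iff_dvd] at h2
  exact Int.natAbs_dvd.mp h2

theorem CongrMod.dvd_delta_iff {ℓ : ℤ} (hℓ : ℓ ∣ K) (h : CongrMod K W W') :
    ℓ ∣ W'.Δ ↔ ℓ ∣ W.Δ := by
  have hd : ℓ ∣ W'.Δ - W.Δ := hℓ.trans h.delta_sub_dvd
  constructor
  · intro h'
    have := dvd_sub h' hd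
    simpa using this
  · intro h'
    have := dvd_add hd h'
    simpa using this

theorem CongrMod.dvd_c₄_iff {ℓ : ℤ} (hℓ : ℓ ∣ K) (h : CongrMod K W W') :
    ℓ ∣ W'.c₄ ↔ ℓ ∣ W.c₄ := by
  have hd : ℓ ∣ W'.c₄ - W.c₄ := hℓ.trans h.c₄_sub_dvd
  constructor
  · intro h'
    have := dvd_sub h' hd
    simpa using this
  · intro h'
    have := dvd_add hd h'
    simpa using this

/-- **Semistability criterion.**  If `W` is a semistable model, `W' ≡ W` modulo `K`, and at every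
prime `ℓ ∤ K` dividing `Δ(W')` the invariant `c₄(W')` is an `ℓ`-unit, then `W'` is a semistable
model. -/
theorem CongrMod.isSemistableModel (h : CongrMod K W W') (hW : W.IsSemistableModel)
    (hout : ∀ ℓ : ℕ, ℓ.Prime → ¬ (ℓ : ℤ) ∣ K → (ℓ : ℤ) ∣ W'.Δ → ¬ (ℓ : ℤ) ∣ W'.c₄) :
    W'.IsSemistableModel := by
  intro ℓ hℓ hΔ
  by_cases hK : (ℓ : ℤ) ∣ K
  · rw [h.dvd_c₄_iff hK]
    exact hW ℓ hℓ ((h.dvd_delta_iff hK).mp hΔ)
  · exact hout ℓ hℓ hK hΔ

/-- Good primes dividing the modulus are the same for congruent models. -/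
theorem CongrMod.isGoodPrimeFor_iff {ℓ : ℕ} (hℓ : (ℓ : ℤ) ∣ K) (h : CongrMod K W W') :
    W'.IsGoodPrimeFor ℓ ↔ W.IsGoodPrimeFor ℓ := by
  unfold WeierstrassCurve.IsGoodPrimeFor
  rw [h.dvd_delta_iff hℓ]

end Congr

end Fermat.Agent.S52.B.B2.H352
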