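import Fermat.Agent.S52.B.B2.H352.SS
import Fermat.Agent.S52.B.B2.H352.Model

/-!
# S52 / B2 (helper352): the integral semistable model `W'` with invariants `(C4h, C6h)`

For a semistable integral model `W` with `Δ ≠ 0` we choose an auxiliary prime `p₀ ≥ 7`, `p₀ ∤ Δ`,
`K = 30·p₀·|Δ|` and `M = 1728·K`.  For every `n ≡ 1 mod M` the model `W'` of helper172
(`a₄, a₆` shifted by multiples of `K`) has invariants `C4h c₄ c₆ M n`, `C6h c₄ c₆ M n`,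
`Δ(W') = Δ(W)·Fkh⁵ ≠ 0`, is congruent to `W` modulo `K` (hence modulo every PRIME dividing `M`)
and is semistable (Lemma SS at the new primes).

NOTE.  `W' ≡ W mod M` itself is false in general for this model (`C4h − c₄ ≡ 20·M·(c₄k + c₆)`
modulo `M²` for `n = 1 + Mk`, whereas `48·M ∣ C4h − c₄` would be needed); therefore the reduction
clause is stated for prime divisors of `M` (`IntegralModelP`), which is all that `Switch` uses.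
-/

set_option autoImplicit false

namespace Fermat.Agent.S52.B.B2.H352

open WeierstrassCurve Fermat.Agent.S52.Fam Fermat.Agent.S52.B

/-- **Piece B2**, reductions at the prime divisors of `M`. -/
def IntegralModelP : Prop :=
  ∀ (W : WeierstrassCurve ℤ), W.Δ ≠ 0 → W.IsSemistableModel →
    ∃ (M : ℤ) (p₀ : ℕ), 0 < M ∧ (6 : ℤ) ∣ M ∧ p₀.Prime ∧ 7 ≤ p₀ ∧ ¬ (p₀ : ℤ) ∣ W.Δ ∧ (p₀ : ℤ) ∣ M ∧
      ∀ n : ℤ, n ≡ 1 [ZMOD M] →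
        ∃ W' : WeierstrassCurve ℤ,
          W'.c₄ = C4h W.c₄ W.c₆ M n ∧ W'.c₆ = C6h W.c₄ W.c₆ M n ∧
          W'.Δ ≠ 0 ∧ W'.IsSemistableModel ∧
          ∀ ℓ : ℕ, ℓ.Prime → (ℓ : ℤ) ∣ M → W'.reductionMod ℓ = W.reductionMod ℓ

/-! ### the homogenised syzygy over `ℤ` -/

theorem syzygy_hom_rat (c₄ c₆ m n : ℚ) (hn : n ≠ 0) :
    C4h c₄ c₆ m n ^ 3 - C6h c₄ c₆ m n ^ 2 = (c₄ ^ 3 - c₆ ^ 2) * Fkh c₄ c₆ m n ^ 5 := by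
  rw [C4h_eq_pow_mul _ _ _ hn, C6h_eq_pow_mul _ _ _ hn, Fkh_eq_pow_mul _ _ _ hn]
  have h := syzygy c₄ c₆ (m / n)
  linear_combination n ^ 60 * h

theorem syzygy_hom_int (c₄ c₆ m n : ℤ) (hn : n ≠ 0) :
    C4h c₄ c₆ m n ^ 3 - C6h c₄ c₆ m n ^ 2 = (c₄ ^ 3 - c₆ ^ 2) * Fkh c₄ c₆ m n ^ 5 := by
  have h := syzygy_hom_rat (c₄ : ℚ) (c₆ : ℚ) (m : ℚ) (n : ℚ) (by exact_mod_cast hn)
  have e4 := map_C4h (Int.castRingHom ℚ) c₄ c₆ m n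
  have e6 := map_C6h (Int.castRingHom ℚ) c₄ c₆ m n
  have eF := map_Fkh (Int.castRingHom ℚ) c₄ c₆ m n
  simp only [eq_intCast] at e4 e6 eF
  rw [← e4, ← e6, ← eF] at h
  exact_mod_cast h

/-! ### congruences -/

theorem pow_sub_one_dvd {M n : ℤ} (hn : n ≡ 1 [ZMOD M]) (k : ℕ) : M ∣ n ^ k - 1 := by
  have h := (hn.pow k)
  rw [one_pow] at h
  exact (Int.modEq_iff_dvd.mp h.symm)

theorem dvd_C4h_sub (c₄ c₆ : ℤ) {M n : ℤ} (hn : n ≡ 1 [ZMOD M]) :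
    M ∣ C4h c₄ c₆ M n - c₄ := by
  have h1 := C4h_sub_dvd c₄ c₆ M n
  have h2 : M ∣ c₄ * (n ^ 20 - 1) := Dvd.dvd.mul_left (pow_sub_one_dvd hn 20) c₄
  have := dvd_add h1 h2
  have e : C4h c₄ c₆ M n - c₄ * n ^ 20 + c₄ * (n ^ 20 - 1) = C4h c₄ c₆ M n - c₄ := by ring
  rwa [e] at this

theorem dvd_C6h_sub (c₄ c₆ : ℤ) {M n : ℤ} (hn : n ≡ 1 [ZMOD M]) :
    M ∣ C6h c₄ c₆ M n - c₆ := by
  have h1 := C6h_sub_dvd c₄ c₆ M n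
  have h2 : M ∣ c₆ * (n ^ 30 - 1) := Dvd.dvd.mul_left (pow_sub_one_dvd hn 30) c₆
  have := dvd_add h1 h2
  have e : C6h c₄ c₆ M n - c₆ * n ^ 30 + c₆ * (n ^ 30 - 1) = C6h c₄ c₆ M n - c₆ := by ring
  rwa [e] at this

theorem dvd_Fkh_sub_one (c₄ c₆ : ℤ) {M n : ℤ} (hn : n ≡ 1 [ZMOD M]) :
    M ∣ Fkh c₄ c₆ M n - 1 := by
  have h1 := Fkh_sub_dvd c₄ c₆ M n
  have h2 : M ∣ n ^ 12 - 1 := pow_sub_one_dvd hn 12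
  have := dvd_add h1 h2
  have e : Fkh c₄ c₆ M n - n ^ 12 + (n ^ 12 - 1) = Fkh c₄ c₆ M n - 1 := by ring
  rwa [e] at this

theorem Fkh_ne_zero (c₄ c₆ : ℤ) {M n : ℤ} (hM : 2 ≤ M) (hn : n ≡ 1 [ZMOD M]) :
    Fkh c₄ c₆ M n ≠ 0 := by
  intro h0
  have h := dvd_Fkh_sub_one c₄ c₆ hn
  rw [h0, zero_sub] at h
  have h1 : M ∣ 1 := (dvd_neg.mp h)
  have := Int.le_of_dvd one_pos h1
  omega

theorem ne_zero_of_modEq_one {M n : ℤ} (hM : 2 ≤ M) (hn : n ≡ 1 [ZMOD M]) : n ≠ 0 := by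
  rintro rfl
  have h := Int.modEq_iff_dvd.mp hn
  have h1 : M ∣ 1 := by simpa using h
  have := Int.le_of_dvd one_pos h1
  omega

/-! ### the new primes -/

/-- At a prime `ℓ ∤ 30·Δ(W)·M`, `ℓ ∣ Fkh` implies `ℓ ∤ C4h`. -/
theorem not_dvd_C4h_of_dvd_Fkh (c₄ c₆ M n : ℤ) {ℓ : ℕ} (hℓ : ℓ.Prime)
    (h2 : ¬ (ℓ : ℤ) ∣ 2) (h3 : ¬ (ℓ : ℤ) ∣ 3) (h5 : ¬ (ℓ : ℤ) ∣ 5)
    (hΔ : ¬ (ℓ : ℤ) ∣ c₄ ^ 3 - c₆ ^ 2) (hM : ¬ (ℓ : ℤ) ∣ M)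
    (hF : (ℓ : ℤ) ∣ Fkh c₄ c₆ M n) : ¬ (ℓ : ℤ) ∣ C4h c₄ c₆ M n := by
  intro hC
  have : Fact ℓ.Prime := ⟨hℓ⟩
  let φ : ℤ →+* ZMod ℓ := Int.castRingHom (ZMod ℓ)
  have hφ : ∀ x : ℤ, φ x = 0 ↔ (ℓ : ℤ) ∣ x := fun x => by
    simp only [φ, eq_intCast]
    exact ZMod.intCast_zmod_eq_zero_iff_dvd x ℓ
  have k2 : (2 : ZMod ℓ) ≠ 0 := by
    intro h
    apply h2
    rw [← hφ]
    simpa [φ] using h
  have k3 : (3 : ZMod ℓ) ≠ 0 := by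
    intro h
    apply h3
    rw [← hφ]
    simpa [φ] using h
  have k5 : (5 : ZMod ℓ) ≠ 0 := by
    intro h
    apply h5
    rw [← hφ]
    simpa [φ] using h
  have kΔ : (φ c₄) ^ 3 - (φ c₆) ^ 2 ≠ 0 := by
    intro h
    apply hΔ
    rw [← hφ]
    simpa using h
  have kM : φ M ≠ 0 := fun h => hM ((hφ M).mp h)
  refine lemmaSS k2 k3 k5 (φ c₄) (φ c₆) (φ M) (φ n) kΔ (Or.inl kM) ⟨?_, ?_⟩
  · rw [← map_C4h]; exact (hφ _).mpr hC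
  · rw [← map_Fkh]; exact (hφ _).mpr hF

/-! ### the model -/

theorem exists_aux_prime (D : ℤ) (hD : D ≠ 0) :
    ∃ p₀ : ℕ, p₀.Prime ∧ 7 ≤ p₀ ∧ ¬ (p₀ : ℤ) ∣ D := by
  obtain ⟨p, hp, hpp⟩ := Nat.exists_infinite_primes (max 7 (D.natAbs + 1))
  refine ⟨p, hpp, le_trans (le_max_left _ _) hp, ?_⟩
  intro h
  have h1 : p ∣ D.natAbs := Int.natCast_dvd.mp h
  have h2 : p ≤ D.natAbs := Nat.le_of_dvd (Int.natAbs_pos.mpr hD) h1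
  have h3 : D.natAbs + 1 ≤ p := le_trans (le_max_right _ _) hp
  omega

/-- The strong form: the model is congruent to `W` modulo `K`, where `M = 1728·K`. -/
theorem exists_model (W : WeierstrassCurve ℤ) (hΔ : W.Δ ≠ 0) (hW : W.IsSemistableModel) :
    ∃ (K : ℤ) (p₀ : ℕ), 0 < K ∧ (30 : ℤ) ∣ K ∧ W.Δ ∣ K ∧ p₀.Prime ∧ 7 ≤ p₀ ∧
      ¬ (p₀ : ℤ) ∣ W.Δ ∧ (p₀ : ℤ) ∣ K ∧
      ∀ n : ℤ, n ≡ 1 [ZMOD (1728 * K)] →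
        ∃ W' : WeierstrassCurve ℤ,
          W'.c₄ = C4h W.c₄ W.c₆ (1728 * K) n ∧ W'.c₆ = C6h W.c₄ W.c₆ (1728 * K) n ∧
          W'.Δ = W.Δ * Fkh W.c₄ W.c₆ (1728 * K) n ^ 5 ∧
          W'.Δ ≠ 0 ∧ W'.IsSemistableModel ∧ CongrMod K W W' := by
  obtain ⟨p₀, hp₀, hp₀7, hp₀Δ⟩ := exists_aux_prime W.Δ hΔ
  have hp₀pos : (0 : ℤ) < p₀ := by exact_mod_cast hp₀.pos
  have hΔpos : (0 : ℤ) < |W.Δ| := abs_pos.mpr hΔ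
  set K : ℤ := 30 * p₀ * |W.Δ| with hK
  have hKpos : 0 < K := by positivity
  have h30K : (30 : ℤ) ∣ K := ⟨p₀ * |W.Δ|, by rw [hK]; ring⟩
  have hΔK : W.Δ ∣ K := Dvd.dvd.mul_left ((dvd_abs _ _).mpr dvd_rfl) _
  have hp₀K : (p₀ : ℤ) ∣ K := ⟨30 * |W.Δ|, by rw [hK]; ring⟩
  refine ⟨K, p₀, hKpos, h30K, hΔK, hp₀, hp₀7, hp₀Δ, hp₀K, ?_⟩
  intro n hn
  set M : ℤ := 1728 * K with hM
  have hM2 : 2 ≤ M := by omega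
  have hn0 : n ≠ 0 := ne_zero_of_modEq_one hM2 hn
  have h4 : 576 * K ∣ C4h W.c₄ W.c₆ M n - W.c₄ :=
    Dvd.dvd.trans ⟨3, by rw [hM]; ring⟩ (dvd_C4h_sub W.c₄ W.c₆ hn)
  have h6 : 864 * K ∣ C6h W.c₄ W.c₆ M n - W.c₆ :=
    Dvd.dvd.trans ⟨2, by rw [hM]; ring⟩ (dvd_C6h_sub W.c₄ W.c₆ hn)
  obtain ⟨W', hcong, hc4, hc6⟩ := exists_model_congrMod W K _ _ h4 h6
  have hsyz := syzygy_hom_int W.c₄ W.c₆ M n hn0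
  have hF0 : Fkh W.c₄ W.c₆ M n ≠ 0 := Fkh_ne_zero W.c₄ W.c₆ hM2 hn
  have hΔ' : W'.Δ = W.Δ * Fkh W.c₄ W.c₆ M n ^ 5 := by
    have h1 := W'.c_relation
    have h2 := W.c_relation
    rw [hc4, hc6, hsyz, ← h2] at h1
    have : (1728 : ℤ) * W'.Δ = 1728 * (W.Δ * Fkh W.c₄ W.c₆ M n ^ 5) := by
      rw [h1]; ring
    exact mul_left_cancel₀ (by norm_num) this
  have hΔ'0 : W'.Δ ≠ 0 := by
    rw [hΔ']
    exact mul_ne_zero hΔ (pow_ne_zero _ hF0)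
  refine ⟨W', hc4, hc6, hΔ', hΔ'0, ?_, hcong⟩
  apply hcong.isSemistableModel hW
  intro ℓ hℓ hℓK hℓΔ'
  have hℓp : Prime (ℓ : ℤ) := Nat.prime_iff_prime_int.mp hℓ
  have hnd : ∀ a : ℤ, a ∣ K → ¬ (ℓ : ℤ) ∣ a := fun a ha h => hℓK (h.trans ha)
  have h2 : ¬ (ℓ : ℤ) ∣ 2 := hnd 2 (Dvd.dvd.trans (by norm_num) h30K)
  have h3 : ¬ (ℓ : ℤ) ∣ 3 := hnd 3 (Dvd.dvd.trans (by norm_num) h30K)
  have h5 : ¬ (ℓ : ℤ) ∣ 5 := hnd 5 (Dvd.dvd.trans (by norm_num) h30K)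
  have hℓΔ : ¬ (ℓ : ℤ) ∣ W.Δ := hnd _ hΔK
  have h1728 : ¬ (ℓ : ℤ) ∣ 1728 := by
    intro h
    have e : (1728 : ℤ) = 2 ^ 6 * 3 ^ 3 := by norm_num
    rw [e] at h
    rcases hℓp.dvd_or_dvd h with h | h
    · exact h2 (hℓp.dvd_of_dvd_pow h)
    · exact h3 (hℓp.dvd_of_dvd_pow h)
  have hdisc : ¬ (ℓ : ℤ) ∣ W.c₄ ^ 3 - W.c₆ ^ 2 := by
    rw [← W.c_relation]
    intro h
    rcases hℓp.dvd_or_dvd h with h | h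
    · exact h1728 h
    · exact hℓΔ h
  have hℓM : ¬ (ℓ : ℤ) ∣ M := by
    intro h
    rcases hℓp.dvd_or_dvd h with h | h
    · exact h1728 h
    · exact hℓK h
  have hF : (ℓ : ℤ) ∣ Fkh W.c₄ W.c₆ M n := by
    rw [hΔ'] at hℓΔ'
    rcases hℓp.dvd_or_dvd hℓΔ' with h | h
    · exact absurd h hℓΔ
    · exact hℓp.dvd_of_dvd_pow h
  rw [hc4]
  exact not_dvd_C4h_of_dvd_Fkh W.c₄ W.c₆ M n hℓ h2 h3 h5 hdisc hℓM hF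

/-- **B2, prime form.** -/
theorem integralModelP : IntegralModelP := by
  intro W hΔ hW
  obtain ⟨K, p₀, hK, h30, _hΔK, hp₀, hp₀7, hp₀Δ, hp₀K, hmod⟩ := exists_model W hΔ hW
  refine ⟨1728 * K, p₀, by positivity, ?_, hp₀, hp₀7, hp₀Δ, Dvd.dvd.mul_left hp₀K _, ?_⟩
  · exact Dvd.dvd.mul_right (by norm_num) K
  intro n hn
  obtain ⟨W', hc4, hc6, _, hΔ', hss, hcong⟩ := hmod n hn
  refine ⟨W', hc4, hc6, hΔ', hss, ?_⟩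
  intro ℓ hℓ hℓM
  have hℓp : Prime (ℓ : ℤ) := Nat.prime_iff_prime_int.mp hℓ
  have hℓK : (ℓ : ℤ) ∣ K := by
    rcases hℓp.dvd_or_dvd hℓM with h | h
    · have e : (1728 : ℤ) = 2 ^ 6 * 3 ^ 3 := by norm_num
      rw [e] at h
      rcases hℓp.dvd_or_dvd h with h | h
      · exact (hℓp.dvd_of_dvd_pow h).trans (Dvd.dvd.trans (by norm_num) h30)
      · exact (hℓp.dvd_of_dvd_pow h).trans (Dvd.dvd.trans (by norm_num) h30)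
    · exact h
  exact hcong.reductionMod_eq hℓK

end Fermat.Agent.S52.B.B2.H352
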