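import Fermat.Agent.S52.Fam.Syz
import Fermat.Agent.S52.B.Hom
import Fermat.Agent.S52.H890.TateExists

/-!
# S52 / B2 (helper352): Lemma SS — `C4h` and `Fkh` have no common zero

`k` a field in which `2, 3, 5` are invertible, `c₄³ ≠ c₆²`, `(m, n) ≠ (0, 0)`:
`¬ (C4h c₄ c₆ m n = 0 ∧ Fkh c₄ c₆ m n = 0)`.

Route (helper952, `coord/S52-B1-data.md`): Tate parameters over the algebraic closure
(helper890 `exists_tate_params`), the Tate-chart identities `C4_tate_one`, `Fk_tate_one`,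
`quad_tate_one` and the Bezout certificates `cert_affine`, `cert_infty` (helper952, `Fam/`).
-/

set_option autoImplicit false

namespace Fermat.Agent.S52.B.B2.H352

open Fermat.Agent.S52.Fam Fermat.Agent.S52.B

section Core

variable {k : Type*} [Field k]

theorem C4hom_split (X Z : k) :
    C4hom X Z = 5 * X ^ 2 * Z ^ 2 + (X ^ 2 - 11 * X * Z - Z ^ 2) * (X ^ 2 - X * Z - Z ^ 2) := by
  simp only [C4hom]; ring

theorem kappa2_ne_zero (h2 : (2 : k) ≠ 0) (h3 : (3 : k) ≠ 0) (h5 : (5 : k) ≠ 0) :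
    ((κ2 : ℤ) : k) ≠ 0 := by
  have : ((κ2 : ℤ) : k) = 2 ^ 12 * 3 ^ 6 * 5 := by
    simp only [κ2]; push_cast; norm_num
  rw [this]
  exact mul_ne_zero (mul_ne_zero (pow_ne_zero _ h2) (pow_ne_zero _ h3)) h5

/-- The common core of both charts. -/
theorem core_false (h2 : (2 : k) ≠ 0) (h3 : (3 : k) ≠ 0) (h5 : (5 : k) ≠ 0)
    {c X' Z q U V : k} (hc : c ≠ 0) (hcq : c ^ 2 - 11 * c - 1 ≠ 0)
    (hquad : (c * X') ^ 2 - 11 * (c * X') * Z - Z ^ 2 = (c ^ 2 - 11 * c - 1) * q ^ 5)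
    (hcert : U * q + V * Z = ((κ2 : ℤ) : k) * c ^ 10 * (c ^ 2 - 11 * c - 1))
    (hC4 : C4hom (c * X') Z = 0) (hF : X' * Z * q = 0) : False := by
  have hκ := kappa2_ne_zero h2 h3 h5
  -- it suffices to show `Z = 0` and `q = 0`
  suffices h : Z = 0 ∧ q = 0 by
    obtain ⟨hZ, hq⟩ := h
    rw [hZ, hq] at hcert
    have : ((κ2 : ℤ) : k) * c ^ 10 * (c ^ 2 - 11 * c - 1) = 0 := by
      rw [← hcert]; ring
    exact mul_ne_zero (mul_ne_zero hκ (pow_ne_zero _ hc)) hcq this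
  have hq_of (hX : X' = 0) (hZ : Z = 0) : q = 0 := by
    rw [hX, hZ] at hquad
    have : (c ^ 2 - 11 * c - 1) * q ^ 5 = 0 := by rw [← hquad]; ring
    rcases mul_eq_zero.mp this with h | h
    · exact absurd h hcq
    · exact pow_eq_zero_iff (by norm_num) |>.mp h
  have hXZ : X' = 0 ∧ Z = 0 := by
    rcases mul_eq_zero.mp hF with h | hq
    · rcases mul_eq_zero.mp h with hX | hZ
      · refine ⟨hX, ?_⟩
        rw [hX] at hC4
        have : Z ^ 4 = 0 := by rw [← hC4]; simp only [C4hom]; ring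
        exact pow_eq_zero_iff (by norm_num) |>.mp this
      · refine ⟨?_, hZ⟩
        rw [hZ] at hC4
        have : (c * X') ^ 4 = 0 := by rw [← hC4]; simp only [C4hom]; ring
        have h' : c * X' = 0 := pow_eq_zero_iff (by norm_num) |>.mp this
        exact (mul_eq_zero.mp h').resolve_left hc
    · -- `q = 0`: the quadratic form vanishes
      have hQ : (c * X') ^ 2 - 11 * (c * X') * Z - Z ^ 2 = 0 := by
        rw [hquad, hq]; ring
      have h5' : 5 * (c * X') ^ 2 * Z ^ 2 = 0 := by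
        have := C4hom_split (c * X') Z
        rw [hC4, hQ] at this
        rw [this]; ring
      have hprod : (c * X') ^ 2 * Z ^ 2 = 0 := by
        rcases mul_eq_zero.mp (by rw [mul_assoc] at h5'; exact h5') with h | h
        · exact absurd h h5
        · exact h
      rcases mul_eq_zero.mp hprod with h | h
      · have hX0 : c * X' = 0 := pow_eq_zero_iff (by norm_num) |>.mp h
        have hZ2 : Z ^ 2 = 0 := by
          rw [hX0] at hQ
          have : -(Z ^ 2) = 0 := by rw [← hQ]; ring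
          exact neg_eq_zero.mp this
        exact ⟨(mul_eq_zero.mp hX0).resolve_left hc, pow_eq_zero_iff (by norm_num) |>.mp hZ2⟩
      · have hZ0 : Z = 0 := pow_eq_zero_iff (by norm_num) |>.mp h
        have hX2 : (c * X') ^ 2 = 0 := by
          rw [hZ0] at hQ
          rw [← hQ]; ring
        have hX0 : c * X' = 0 := pow_eq_zero_iff (by norm_num) |>.mp hX2
        exact ⟨(mul_eq_zero.mp hX0).resolve_left hc, hZ0⟩
  exact ⟨hXZ.2, hq_of hXZ.1 hXZ.2⟩

end Core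

section Infinity

variable {R : Type*} [CommRing R]

/-- leading coefficient of `C4` in Tate coordinates -/
theorem C4_20_tate (c : R) : C4_20 (tc4 c) (tc6 c) = C4hom (c * q5_5 c) (q5'_5 c) := by
  simp only [C4_20, tc4, tc6, C4hom, q5_5, q5'_5]; ring

/-- leading coefficient of `Fk` in Tate coordinates -/
theorem Fk_12_tate (c : R) :
    Fk_12 (tc4 c) (tc6 c) = q5_5 c * q5'_5 c * (c ^ 4 - 178 * c ^ 2 + 1) := by
  simp only [Fk_12, tc4, tc6, q5_5, q5'_5]; ring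

/-- leading coefficient of the quadratic-form identity -/
theorem quad_top_tate (c : R) :
    (c * q5_5 c) ^ 2 - 11 * (c * q5_5 c) * q5'_5 c - q5'_5 c ^ 2 =
      (c ^ 2 - 11 * c - 1) * (c ^ 4 - 178 * c ^ 2 + 1) ^ 5 := by
  simp only [q5_5, q5'_5]; ring

theorem C4_20_weight (x y u : R) : C4_20 (u ^ 4 * x) (u ^ 6 * y) = u ^ 44 * C4_20 x y := by
  simp only [C4_20]; ring

theorem Fk_12_weight (x y u : R) : Fk_12 (u ^ 4 * x) (u ^ 6 * y) = u ^ 24 * Fk_12 x y := by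
  simp only [Fk_12]; ring

theorem C4h_zero_right (c₄ c₆ m : R) : C4h c₄ c₆ m 0 = C4_20 c₄ c₆ * m ^ 20 := by
  simp only [C4h]; ring

theorem Fkh_zero_right (c₄ c₆ m : R) : Fkh c₄ c₆ m 0 = Fk_12 c₄ c₆ * m ^ 12 := by
  simp only [Fkh]; ring

end Infinity

section Closed

variable {K : Type*} [Field K]

theorem tc4_eq_H5 (c : K) : Fermat.Agent.S52.H890.H5 c 1 = tc4 c := by
  simp only [Fermat.Agent.S52.H890.H5, tc4]; ring

theorem tc6_eq_T5 (c : K) : Fermat.Agent.S52.H890.T5 c 1 = tc6 c := by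
  simp only [Fermat.Agent.S52.H890.T5, tc6]; ring

/-- Lemma SS over an algebraically closed field. -/
theorem lemmaSS_closed [IsAlgClosed K] (h2 : (2 : K) ≠ 0) (h3 : (3 : K) ≠ 0) (h5 : (5 : K) ≠ 0)
    (c₄ c₆ m n : K) (hΔ : c₄ ^ 3 - c₆ ^ 2 ≠ 0) (hmn : m ≠ 0 ∨ n ≠ 0) :
    ¬ (C4h c₄ c₆ m n = 0 ∧ Fkh c₄ c₆ m n = 0) := by
  rintro ⟨hC, hF⟩
  obtain ⟨c, lam, hlam, hc, hcq, h4, h6⟩ :=
    Fermat.Agent.S52.H890.exists_tate_params h2 h3 h5 c₄ c₆ hΔ
  rw [tc4_eq_H5] at h4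
  rw [tc6_eq_T5] at h6
  by_cases hn : n = 0
  · -- chart at infinity
    subst hn
    have hm : m ≠ 0 := hmn.resolve_right (by simp)
    rw [C4h_zero_right] at hC
    rw [Fkh_zero_right] at hF
    have hC' : C4_20 c₄ c₆ = 0 := (mul_eq_zero.mp hC).resolve_right (pow_ne_zero _ hm)
    have hF' : Fk_12 c₄ c₆ = 0 := (mul_eq_zero.mp hF).resolve_right (pow_ne_zero _ hm)
    rw [h4, h6, C4_20_weight] at hC'
    rw [h4, h6, Fk_12_weight] at hF'
    have hC'' : C4_20 (tc4 c) (tc6 c) = 0 :=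
      (mul_eq_zero.mp hC').resolve_left (pow_ne_zero _ hlam)
    have hF'' : Fk_12 (tc4 c) (tc6 c) = 0 :=
      (mul_eq_zero.mp hF').resolve_left (pow_ne_zero _ hlam)
    rw [C4_20_tate] at hC''
    rw [Fk_12_tate] at hF''
    exact core_false h2 h3 h5 hc hcq (quad_top_tate c) (cert_infty c) hC'' hF''
  · -- affine chart
    rw [C4h_eq_pow_mul _ _ _ hn] at hC
    rw [Fkh_eq_pow_mul _ _ _ hn] at hF
    have hC' : C4 c₄ c₆ (m / n) = 0 := (mul_eq_zero.mp hC).resolve_left (pow_ne_zero _ hn)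
    have hF' : Fk c₄ c₆ (m / n) = 0 := (mul_eq_zero.mp hF).resolve_left (pow_ne_zero _ hn)
    rw [h4, h6, C4_weight] at hC'
    rw [h4, h6, Fk_weight] at hF'
    have hC'' : C4 (tc4 c) (tc6 c) (lam ^ 2 * (m / n)) = 0 :=
      (mul_eq_zero.mp hC').resolve_left (pow_ne_zero _ hlam)
    rw [C4_tate_one] at hC''
    rw [Fk_tate_one] at hF'
    exact core_false h2 h3 h5 hc hcq (quad_tate_one c _) (cert_affine c _) hC'' hF'

end Closed

section Field

variable {k : Type*} [Field k]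

/-- **Lemma SS.** -/
theorem lemmaSS (h2 : (2 : k) ≠ 0) (h3 : (3 : k) ≠ 0) (h5 : (5 : k) ≠ 0)
    (c₄ c₆ m n : k) (hΔ : c₄ ^ 3 - c₆ ^ 2 ≠ 0) (hmn : m ≠ 0 ∨ n ≠ 0) :
    ¬ (C4h c₄ c₆ m n = 0 ∧ Fkh c₄ c₆ m n = 0) := by
  rintro ⟨hC, hF⟩
  let φ : k →+* AlgebraicClosure k := algebraMap k (AlgebraicClosure k)
  have hφ : Function.Injective φ := (algebraMap k (AlgebraicClosure k)).injective
  have hne : ∀ x : k, x ≠ 0 → φ x ≠ 0 := fun x hx h => hx (hφ (by rw [h, map_zero]))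
  refine lemmaSS_closed (K := AlgebraicClosure k) ?_ ?_ ?_ (φ c₄) (φ c₆) (φ m) (φ n) ?_ ?_ ⟨?_, ?_⟩
  · have := hne 2 h2; rwa [map_ofNat] at this
  · have := hne 3 h3; rwa [map_ofNat] at this
  · have := hne 5 h5; rwa [map_ofNat] at this
  · have := hne _ hΔ; simpa using this
  · rcases hmn with h | h
    · exact Or.inl (hne _ h)
    · exact Or.inr (hne _ h)
  · rw [← map_C4h, hC, map_zero]
  · rw [← map_Fkh, hF, map_zero]

end Field

end Fermat.Agent.S52.B.B2.H352
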